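import Fermat.Agent.DeligneSerre.X1.Hecke.Series
import Fermat.Agent.DeligneSerre.X1.KummerGroup
import Fermat.Agent.ModCurve.Fun.Descent

/-!
# `T_p` on the function field

`T_p` on the function field of `X₁(M)`: over `ℂ` it is the product of the translates, and it is
defined over `ℚ̄`.
-/

set_option autoImplicit false
set_option linter.unusedSectionVars false
set_option synthInstance.maxHeartbeats 200000

noncomputable section

open CongruenceSubgroup
open scoped MatrixGroups

namespace FermatAgent.DeligneSerre.X1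

open ModularCurve (qExpand coeffMap coeffEmb laurentBaseChange)
open FermatAgent.ModFun (qLaurent qbarToC)
open FermatAgent.DeligneSerre.Periods (primeUnit)

local notation "Qb" => AlgebraicClosure ℚ

variable {M : ℕ} [NeZero M]

section Descent

variable {L : Type*} [Field L] [Algebra ℚ L] (ι : L →ₐ[ℚ] ℂ)

include ι in
theorem mem_x1FieldC_of_coeffMap {y : LaurentSeries L}
    (h : coeffMap (ι : L →+* ℂ) y ∈ x1FieldC ℂ M) : y ∈ x1FieldC L M := by
  let : Algebra L ℂ := ι.toRingHom.toAlgebra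
  refine FermatAgent.ModFun.mem_adjoin_of_coeffMap_mem (L := ℂ) ?_
  rw [coeffMap_image_x1Gens]
  exact h

/-- The extension of scalars on the field. -/
def toComplexField : x1FieldC L M →+* x1FieldC ℂ M :=
  ((coeffMap (ι : L →+* ℂ)).comp (x1FieldC L M).toSubfield.subtype).codRestrict (x1FieldC ℂ M)
    fun x => coeffMap_mem_of_mem (ι : L →+* ℂ) x.2

theorem coe_toComplexField (x : x1FieldC L M) :
    (toComplexField ι x : LaurentSeries ℂ) = coeffMap (ι : L →+* ℂ) (x : LaurentSeries L) := rfl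

set_option maxHeartbeats 400000 in
theorem x1Diamond_toComplexField (d : (ZMod M)ˣ) (x : x1FieldC L M) :
    toComplexField ι (x1Diamond ι d x) = x1Diamond (AlgHom.id ℚ ℂ) d (toComplexField ι x) := by
  obtain ⟨x, hx⟩ := x
  have hx' : x ∈ IntermediateField.adjoin L (Set.range (allSer (M := M) L)) :=
    x1FieldC_eq_adjoin_allSer (L := L) (M := M) ▸ hx
  have key : ∀ y ∈ IntermediateField.adjoin L (Set.range (allSer (M := M) L)), ∀ hy : y ∈ x1FieldC L M,
      toComplexField ι (x1Diamond ι d ⟨y, hy⟩) =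
        x1Diamond (AlgHom.id ℚ ℂ) d (toComplexField ι ⟨y, hy⟩) := by
    have hle : ∀ y, y ∈ IntermediateField.adjoin L (Set.range (allSer (M := M) L)) →
        y ∈ x1FieldC L M := fun y hy => x1FieldC_eq_adjoin_allSer (L := L) (M := M) ▸ hy
    intro y hy
    induction hy using IntermediateField.adjoin_induction with
    | mem y hy =>
      intro h
      obtain ⟨i, rfl⟩ := hy
      have e : toComplexField ι ⟨allSer L i, h⟩ = ⟨allSer ℂ i, allSer_mem ℂ i⟩ :=
        Subtype.ext (coeffMap_allSer _ i)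
      rw [e]
      refine Subtype.ext ?_
      rw [coe_toComplexField, coe_x1Diamond_allSer, coe_x1Diamond_allSer, coeffMap_allSer]
    | algebraMap c =>
      intro h
      have e : (⟨_, h⟩ : x1FieldC L M) = algebraMap L (x1FieldC L M) c := Subtype.ext rfl
      have e2 : toComplexField ι (algebraMap L (x1FieldC L M) c) =
          algebraMap ℂ (x1FieldC ℂ M) (ι c) := by
        refine Subtype.ext ?_
        rw [coe_toComplexField]
        show coeffMap (ι : L →+* ℂ) (algebraMap L (LaurentSeries L) c) = algebraMap ℂ _ (ι c)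
        rw [ModularCurve.algebraMap_laurentSeries_eq_single, ModularCurve.coeffMap_single,
          ModularCurve.algebraMap_laurentSeries_eq_single]
        rfl
      rw [e, AlgEquiv.commutes, e2, AlgEquiv.commutes]
    | add a b ha hb iha ihb =>
      intro h
      have e : (⟨_, h⟩ : x1FieldC L M) = ⟨a, hle a ha⟩ + ⟨b, hle b hb⟩ := rfl
      rw [e, map_add, map_add, map_add, map_add, iha, ihb]
    | inv a ha iha =>
      intro h
      have e : (⟨_, h⟩ : x1FieldC L M) = (⟨a, hle a ha⟩ : x1FieldC L M)⁻¹ := Subtype.ext rfl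
      rw [e, map_inv₀, map_inv₀, map_inv₀, map_inv₀, iha]
    | mul a b ha hb iha ihb =>
      intro h
      have e : (⟨_, h⟩ : x1FieldC L M) = ⟨a, hle a ha⟩ * ⟨b, hle b hb⟩ := rfl
      rw [e, map_mul, map_mul, map_mul, map_mul, iha, ihb]
  exact key x hx' hx

end Descent

theorem exists_qExpand_of_coeffMap {K K' : Type*} [Field K] [Field K'] (f : K →+* K') (p : ℕ)
    [NeZero p] {S : LaurentSeries K} {z₀ : LaurentSeries K'}
    (h : coeffMap f S = qExpand K' p z₀) :
    ∃ z : LaurentSeries K, qExpand K p z = S ∧ coeffMap f z = z₀ := by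
  have hc : ∀ k : ℤ, f (S.coeff ((p : ℤ) * k)) = z₀.coeff k := fun k => by
    rw [← ModularCurve.coeffMap_coeff, h, ModularCurve.qExpand_coeff_mul]
  let z : LaurentSeries K := ⟨fun k => S.coeff ((p : ℤ) * k),
    z₀.isPWO_support.mono fun k hk h0 => hk (f.injective (by rw [hc, h0, map_zero]))⟩
  refine ⟨z, ?_, ?_⟩
  · ext n
    by_cases hn : (p : ℤ) ∣ n
    · obtain ⟨k, rfl⟩ := hn
      rw [ModularCurve.qExpand_coeff_mul]
    · rw [ModularCurve.qExpand_coeff_of_not_dvd p _ hn]
      refine (f.injective ?_).symm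
      rw [map_zero, ← ModularCurve.coeffMap_coeff, h, ModularCurve.qExpand_coeff_of_not_dvd p _ hn]
  · ext k
    rw [ModularCurve.coeffMap_coeff]
    exact hc k

variable {p : ℕ} [NeZero p] (hM : 5 ≤ M) (hp : p.Prime) (hpM : ¬ p ∣ M)

include hM in
theorem exists_heckeC (x : x1FieldC ℂ M) :
    ∃ z : x1FieldC ℂ M, ∀ ζ : ℂˣ, IsPrimitiveRoot ζ p → qExpand ℂ p (z : LaurentSeries ℂ) =
      heckeSeries p ζ (x1Diamond (AlgHom.id ℚ ℂ) (primeUnit hp hpM) x : x1FieldC ℂ M)
        (x : LaurentSeries ℂ) := by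
  have key : ∀ f : levelRingOf (gam M), ∀ ζ : ℂˣ, IsPrimitiveRoot ζ p →
      qExpand ℂ p (toX1 hM ⟨_, heckeFun_mem hp hpM f.2⟩ : LaurentSeries ℂ) =
        heckeSeries p ζ (x1Diamond (AlgHom.id ℚ ℂ) (primeUnit hp hpM) (toX1 hM f) : x1FieldC ℂ M)
          (toX1 hM f : LaurentSeries ℂ) := fun f ζ hζ => by
    rw [x1Diamond_toX1, coe_toX1, coe_toX1, coe_toX1]
    exact qExpand_qLaurent_heckeFun hp hpM f.2 hζ
  obtain ⟨a, b, hb, rfl⟩ := exists_toX1_div hM x
  have hb' : b ≠ 0 := fun h => hb (by rw [h, map_zero])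
  refine ⟨toX1 hM ⟨_, heckeFun_mem hp hpM a.2⟩ / toX1 hM ⟨_, heckeFun_mem hp hpM b.2⟩, fun ζ hζ => ?_⟩
  have hne : qExpand ℂ p (toX1 hM ⟨_, heckeFun_mem hp hpM b.2⟩ : LaurentSeries ℂ) ≠ 0 := by
    rw [Ne, map_eq_zero_iff _ (ModularCurve.qExpand_injective (R := ℂ) p), ZeroMemClass.coe_eq_zero,
      map_eq_zero_iff _ (toX1_injective hM)]
    exact fun h => corrProd_ne_zero _ (tCorr1_det_pos hp hpM) hb' (congrArg Subtype.val h)
  rw [show ((toX1 hM ⟨_, heckeFun_mem hp hpM a.2⟩ / toX1 hM ⟨_, heckeFun_mem hp hpM b.2⟩ :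
      x1FieldC ℂ M) : LaurentSeries ℂ) =
      (toX1 hM ⟨_, heckeFun_mem hp hpM a.2⟩ : LaurentSeries ℂ) /
        (toX1 hM ⟨_, heckeFun_mem hp hpM b.2⟩ : LaurentSeries ℂ) from rfl, map_div₀,
    div_eq_iff hne, key b ζ hζ, ← heckeSeries_mul, key a ζ hζ]
  rw [← IntermediateField.coe_mul, ← IntermediateField.coe_mul, ← map_mul, div_mul_cancel₀ _ hb]

/-- `T_p` on the field over `ℂ`. -/
def heckeC : x1FieldC ℂ M →* x1FieldC ℂ M where
  toFun x := (exists_heckeC hM hp hpM x).choose
  map_one' := by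
    have h := (exists_heckeC hM hp hpM 1).choose_spec _ (isPrimitiveRoot_expUnit (p := p))
    refine Subtype.ext (ModularCurve.qExpand_injective (R := ℂ) p (h.trans ?_))
    rw [map_one, OneMemClass.coe_one, heckeSeries_one, map_one]
  map_mul' x y := by
    have h := fun x => (exists_heckeC hM hp hpM x).choose_spec _ (isPrimitiveRoot_expUnit (p := p))
    refine Subtype.ext (ModularCurve.qExpand_injective (R := ℂ) p ?_)
    rw [h (x * y), map_mul, IntermediateField.coe_mul, IntermediateField.coe_mul, heckeSeries_mul,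
      IntermediateField.coe_mul, map_mul, h x, h y]

theorem qExpand_heckeC (x : x1FieldC ℂ M) {ζ : ℂˣ} (hζ : IsPrimitiveRoot ζ p) :
    qExpand ℂ p (heckeC hM hp hpM x : LaurentSeries ℂ) =
      heckeSeries p ζ (x1Diamond (AlgHom.id ℚ ℂ) (primeUnit hp hpM) x : x1FieldC ℂ M)
        (x : LaurentSeries ℂ) :=
  (exists_heckeC hM hp hpM x).choose_spec ζ hζ

theorem heckeC_toX1 (f : levelRingOf (gam M)) :
    heckeC hM hp hpM (toX1 hM f) = toX1 hM ⟨_, heckeFun_mem hp hpM f.2⟩ := by
  refine Subtype.ext (ModularCurve.qExpand_injective (R := ℂ) p ?_)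
  rw [qExpand_heckeC hM hp hpM _ (isPrimitiveRoot_expUnit (p := p)), x1Diamond_toX1, coe_toX1,
    coe_toX1, coe_toX1]
  exact (qExpand_qLaurent_heckeFun hp hpM f.2 (isPrimitiveRoot_expUnit (p := p))).symm

/-- The element of the field over `ℂ` given by one over `ℚ̄`. -/
theorem coeffMap_x1Bar_mem (y : x1Bar M) :
    (y : LaurentSeries Qb) ∈ x1FieldC Qb M := by
  rw [← laurentBaseChange_x1]; exact y.2

/-- The extension of scalars from `ℚ̄` to `ℂ`. -/
def barToComplex (y : x1Bar M) : x1FieldC ℂ M :=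
  toComplexField qbarToC ⟨y, coeffMap_x1Bar_mem y⟩

theorem barToComplex_diamond (d : (ZMod M)ˣ) (y : x1Bar M) :
    barToComplex (x1BarDiamond d y) = x1Diamond (AlgHom.id ℚ ℂ) d (barToComplex y) := by
  refine Eq.trans ?_ (x1Diamond_toComplexField qbarToC d ⟨y, coeffMap_x1Bar_mem y⟩)
  exact congrArg (toComplexField qbarToC)
    (Subtype.ext (coe_x1BaseDiamond qbarToC d y ⟨y, coeffMap_x1Bar_mem y⟩ rfl))

theorem map_primitiveRoot {ζ : Qbˣ} (hζ : IsPrimitiveRoot ζ p) :
    IsPrimitiveRoot (Units.map (qbarToC : Qb →+* ℂ).toMonoidHom ζ) p :=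
  IsPrimitiveRoot.coe_units_iff.mp ((IsPrimitiveRoot.coe_units_iff.mpr hζ).map_of_injective
    (RingHom.injective (qbarToC : Qb →+* ℂ)))

include hM in
theorem exists_heckeBar (y : x1Bar M) :
    ∃ z : x1Bar M, barToComplex z = heckeC hM hp hpM (barToComplex y) ∧
      ∀ ζ : Qbˣ, IsPrimitiveRoot ζ p → qExpand Qb p (z : LaurentSeries Qb) =
        heckeSeries p ζ (x1BarDiamond (primeUnit hp hpM) y : x1Bar M) (y : LaurentSeries Qb) := by
  have h : ∀ ζ : Qbˣ, IsPrimitiveRoot ζ p →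
      coeffMap (qbarToC : Qb →+* ℂ)
          (heckeSeries p ζ (x1BarDiamond (primeUnit hp hpM) y : x1Bar M) (y : LaurentSeries Qb)) =
        qExpand ℂ p (heckeC hM hp hpM (barToComplex y) : LaurentSeries ℂ) := fun ζ hζ => by
    rw [coeffMap_heckeSeries, qExpand_heckeC hM hp hpM _ (map_primitiveRoot hζ), ← barToComplex_diamond]
    rfl
  obtain ⟨ζ₀, hζ₀⟩ := HasEnoughRootsOfUnity.exists_primitiveRoot Qb p
  let u : Qbˣ := (hζ₀.isUnit (NeZero.ne p)).unit
  have hu : IsPrimitiveRoot u p := IsPrimitiveRoot.coe_units_iff.mp hζ₀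
  obtain ⟨z, hz, hzC⟩ := exists_qExpand_of_coeffMap _ p (h u hu)
  have hmem : z ∈ x1FieldC Qb M := mem_x1FieldC_of_coeffMap qbarToC (hzC ▸ SetLike.coe_mem _)
  refine ⟨⟨z, by rw [x1Bar, laurentBaseChange_x1]; exact hmem⟩, Subtype.ext hzC, fun ζ hζ => ?_⟩
  refine (FermatAgent.Igusa.coeffMap_injective (RingHom.injective (qbarToC : Qb →+* ℂ))) ?_
  rw [h ζ hζ, ModularCurve.coeffMap_qExpand]
  exact congrArg _ hzC

/-- `T_p` on `x1Bar M`, as a multiplicative map. -/
def heckeBar : x1Bar M →* x1Bar M where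
  toFun y := (exists_heckeBar hM hp hpM y).choose
  map_one' := by
    obtain ⟨ζ₀, hζ₀⟩ := HasEnoughRootsOfUnity.exists_primitiveRoot Qb p
    let u : Qbˣ := (hζ₀.isUnit (NeZero.ne p)).unit
    have hu : IsPrimitiveRoot u p := IsPrimitiveRoot.coe_units_iff.mp hζ₀
    refine Subtype.ext (ModularCurve.qExpand_injective (R := Qb) p
      (((exists_heckeBar hM hp hpM 1).choose_spec.2 u hu).trans ?_))
    rw [map_one, OneMemClass.coe_one, heckeSeries_one, map_one]
  map_mul' x y := by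
    obtain ⟨ζ₀, hζ₀⟩ := HasEnoughRootsOfUnity.exists_primitiveRoot Qb p
    let u : Qbˣ := (hζ₀.isUnit (NeZero.ne p)).unit
    have hu : IsPrimitiveRoot u p := IsPrimitiveRoot.coe_units_iff.mp hζ₀
    have h := fun x => (exists_heckeBar hM hp hpM x).choose_spec.2 u hu
    refine Subtype.ext (ModularCurve.qExpand_injective (R := Qb) p ?_)
    rw [h (x * y), map_mul, IntermediateField.coe_mul, IntermediateField.coe_mul, heckeSeries_mul,
      IntermediateField.coe_mul, map_mul, h x, h y]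

theorem qExpand_heckeBar (y : x1Bar M) {ζ : Qbˣ} (hζ : IsPrimitiveRoot ζ p) :
    qExpand Qb p (heckeBar hM hp hpM y : LaurentSeries Qb) =
      heckeSeries p ζ (x1BarDiamond (primeUnit hp hpM) y : x1Bar M) (y : LaurentSeries Qb) :=
  (exists_heckeBar hM hp hpM y).choose_spec.2 ζ hζ

theorem barToComplex_heckeBar (y : x1Bar M) :
    barToComplex (heckeBar hM hp hpM y) = heckeC hM hp hpM (barToComplex y) :=
  (exists_heckeBar hM hp hpM y).choose_spec.1

theorem isHeckeOp_heckeBar :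
    IsHeckeOp M p (x1BarDiamond (primeUnit hp hpM)) (Units.map (heckeBar hM hp hpM)) :=
  fun _ hζ y => qExpand_heckeBar hM hp hpM (y : x1Bar M) hζ

/-- `T_p` commutes with a coefficientwise automorphism commuting with the diamond. -/
theorem coe_heckeBar_coeffMap (σ : Qb →+* Qb) {y y' : x1Bar M}
    (hy : (y' : LaurentSeries Qb) = coeffMap σ (y : LaurentSeries Qb))
    (hd : (x1BarDiamond (primeUnit hp hpM) y' : LaurentSeries Qb) =
      coeffMap σ (x1BarDiamond (primeUnit hp hpM) y : LaurentSeries Qb)) :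
    (heckeBar hM hp hpM y' : LaurentSeries Qb) =
      coeffMap σ (heckeBar hM hp hpM y : LaurentSeries Qb) := by
  obtain ⟨ζ₀, hζ₀⟩ := HasEnoughRootsOfUnity.exists_primitiveRoot Qb p
  let u : Qbˣ := (hζ₀.isUnit (NeZero.ne p)).unit
  have hu : IsPrimitiveRoot u p := IsPrimitiveRoot.coe_units_iff.mp hζ₀
  have hσu : IsPrimitiveRoot (Units.map σ.toMonoidHom u) p :=
    IsPrimitiveRoot.coe_units_iff.mp ((IsPrimitiveRoot.coe_units_iff.mpr hu).map_of_injective
      σ.injective)
  refine ModularCurve.qExpand_injective (R := Qb) p ?_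
  rw [qExpand_heckeBar hM hp hpM y' hσu, ← ModularCurve.coeffMap_qExpand,
    qExpand_heckeBar hM hp hpM y hu, coeffMap_heckeSeries, hy, hd]

end FermatAgent.DeligneSerre.X1
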