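import Fermat.Agent.DeligneSerre.X1.LevelOf
import Fermat.Agent.ModCurve.Fun.Level
import Fermat.Agent.ModCurve.Torsion.Mobius
import Fermat.Agent.Periods.TransferHom

/-!
# Invariance of the Hecke product

The product of the translates of an invariant function under a Hecke correspondence is invariant.
-/

set_option autoImplicit false

noncomputable section

open UpperHalfPlane hiding I
open scoped MatrixGroups Manifold

namespace FermatAgent.DeligneSerre.X1

open FermatAgent.ModFun (tameRing IsTame aff coe_aff aff_im mdiff_comp)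
open FermatAgent.Periods (HeckeCorr mob mob_mul im_mob_pos)

local notation "M₂" => Matrix (Fin 2) (Fin 2) ℤ

/-- The action of an integral matrix of positive determinant on `ℍ`. -/
def mobPt (P : M₂) (hP : 0 < P.det) (τ : ℍ) : ℍ := ⟨mob P τ, im_mob_pos P hP τ.2⟩

@[simp] theorem coe_mobPt (P : M₂) (hP : 0 < P.det) (τ : ℍ) :
    (mobPt P hP τ : ℂ) = mob P τ := rfl

theorem mobPt_mul (A B : M₂) (hA : 0 < A.det) (hB : 0 < B.det) (hAB : 0 < (A * B).det) (τ : ℍ) :
    mobPt (A * B) hAB τ = mobPt A hA (mobPt B hB τ) :=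
  UpperHalfPlane.ext (mob_mul A B hB.ne' τ.2)

theorem mobPt_coe_SL (g : SL(2, ℤ)) (hg : 0 < (g : M₂).det) (τ : ℍ) :
    mobPt (g : M₂) hg τ = g • τ := by
  refine UpperHalfPlane.ext ?_
  rw [coe_mobPt, coe_specialLinearGroup_apply]
  simp [mob]

theorem det_coe_SL_pos (g : SL(2, ℤ)) : 0 < (g : M₂).det := by
  rw [Matrix.SpecialLinearGroup.det_coe]; exact one_pos

theorem mdiff_mobPt (P : M₂) (hP : 0 < P.det) : MDiff fun τ : ℍ => (mobPt P hP τ : ℂ) := by
  rw [UpperHalfPlane.mdifferentiable_iff]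
  intro z hz
  refine ((FermatAgent.ModCurveTorsion.analyticAt_mob hP hz).differentiableAt.differentiableWithinAt
    ).congr (fun w hw => ?_) ?_
  · simp [ofComplex_apply_of_im_pos (show 0 < w.im from hw)]
  · simp [ofComplex_apply_of_im_pos (show 0 < z.im from hz)]

/-- Hermite normal form: `P = δ (a b; 0 e)`. -/
theorem exists_mobPt_eq_aff (P : M₂) (hP : 0 < P.det) :
    ∃ (δ : SL(2, ℤ)) (a e : ℕ) (b : ℤ) (_ : NeZero a) (_ : NeZero e),
      ∀ τ, mobPt P hP τ = δ • aff a e b τ := by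
  have hdet : 0 < P 0 0 * P 1 1 - P 0 1 * P 1 0 := by rwa [← Matrix.det_fin_two]
  set g := Int.gcd (P 0 0) (P 1 0) with hg
  have hg0 : g ≠ 0 := by
    intro h
    rw [hg, Int.gcd_eq_zero_iff] at h
    simp [h.1, h.2] at hdet
  obtain ⟨u, hu⟩ : (g : ℤ) ∣ P 0 0 := Int.gcd_dvd_left _ _
  obtain ⟨v, hv⟩ : (g : ℤ) ∣ P 1 0 := Int.gcd_dvd_right _ _
  set p := Int.gcdA (P 0 0) (P 1 0)
  set q := Int.gcdB (P 0 0) (P 1 0)
  have hpq : p * u + q * v = 1 := by
    refine mul_left_cancel₀ (Int.natCast_ne_zero.mpr hg0) ?_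
    have h := Int.gcd_eq_gcd_ab (P 0 0) (P 1 0)
    rw [← hg] at h
    linear_combination -h - p * hu - q * hv
  let δ : SL(2, ℤ) := ⟨!![u, -q; v, p], by rw [Matrix.det_fin_two_of]; linear_combination hpq⟩
  have hge : (g : ℤ) * (-v * P 0 1 + u * P 1 1) = P 0 0 * P 1 1 - P 0 1 * P 1 0 := by
    linear_combination P 0 1 * hv - P 1 1 * hu
  obtain ⟨e, he⟩ : ∃ e : ℕ, (e : ℤ) = -v * P 0 1 + u * P 1 1 :=
    ⟨_, Int.toNat_of_nonneg (pos_of_mul_pos_right (a := (g : ℤ)) (by rw [hge]; exact hdet)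
      (Int.natCast_nonneg g)).le⟩
  have he0 : e ≠ 0 := by
    rintro rfl
    rw [← he] at hge
    simp at hge
    omega
  have : NeZero g := ⟨hg0⟩
  have : NeZero e := ⟨he0⟩
  have hU : 0 < (!![(g : ℤ), p * P 0 1 + q * P 1 1; 0, (e : ℤ)] : M₂).det := by
    rw [Matrix.det_fin_two_of, mul_zero, sub_zero]
    exact mul_pos (by exact_mod_cast Nat.pos_of_ne_zero hg0) (by exact_mod_cast Nat.pos_of_ne_zero he0)
  have hPe : P = (δ : M₂) * !![(g : ℤ), p * P 0 1 + q * P 1 1; 0, (e : ℤ)] := by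
    ext i j
    fin_cases i <;> fin_cases j <;> simp [δ, Matrix.mul_apply, Fin.sum_univ_two] <;>
      first
        | linear_combination hu | linear_combination hv
        | linear_combination (-P 0 1) * hpq + q * he
        | linear_combination (-P 1 1) * hpq - p * he
  refine ⟨δ, g, e, p * P 0 1 + q * P 1 1, inferInstance, inferInstance, fun τ => ?_⟩
  have h1 : mobPt P hP τ = mobPt ((δ : M₂) * !![(g : ℤ), p * P 0 1 + q * P 1 1; 0, (e : ℤ)])
      (hPe ▸ hP) τ := UpperHalfPlane.ext (congrArg (fun Q : M₂ => mob Q (τ : ℂ)) hPe)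
  rw [h1, mobPt_mul _ _ (det_coe_SL_pos δ) hU, mobPt_coe_SL]
  congr 1
  refine UpperHalfPlane.ext ?_
  rw [coe_mobPt, coe_aff]
  simp [mob]

variable {Γ : Subgroup SL(2, ℤ)}

/-- A translate of an invariant function by any integral matrix is tame. -/
theorem isTame_comp_mobPt {f : ℍ → ℂ} (hf : f ∈ levelRingOf Γ) (P : M₂) (hP : 0 < P.det) :
    IsTame fun τ => f (mobPt P hP τ) := by
  obtain ⟨δ, a, e, b, _, _, h⟩ := exists_mobPt_eq_aff P hP
  rw [show (fun τ => f (mobPt P hP τ)) = (fun τ => f (δ • τ)) ∘ aff a e b from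
    funext fun τ => congrArg f (h τ)]
  exact (hf.2.2 δ).comp (div_pos (Nat.cast_pos.mpr (NeZero.pos a))
    (Nat.cast_pos.mpr (NeZero.pos e))) (aff_im a e b)

variable {ι : Type} [Fintype ι] (D : HeckeCorr Γ ι) (hD : ∀ i, 0 < (D.rep i).det)

/-- The product of the translates of `f` under the correspondence. -/
def corrProd (f : ℍ → ℂ) (τ : ℍ) : ℂ := ∏ i, f (mobPt (D.rep i) (hD i) τ)

theorem corrProd_mem {f : ℍ → ℂ} (hf : f ∈ levelRingOf Γ) : corrProd D hD f ∈ levelRingOf Γ := by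
  refine ⟨?_, fun γ hγ τ => ?_, fun γ => ?_⟩
  · rw [UpperHalfPlane.mdifferentiable_iff]
    refine (DifferentiableOn.finsetProd (u := Finset.univ)
      (f := fun i => (fun τ : ℍ => f (mobPt (D.rep i) (hD i) τ)) ∘ ofComplex) fun i _ => ?_).congr
      fun z _ => by simp [corrProd]
    exact UpperHalfPlane.mdifferentiable_iff.mp (mdiff_comp hf.1 (mdiff_mobPt _ _))
  · rw [corrProd, corrProd]
    refine Fintype.prod_equiv (D.targetEquiv ⟨γ, hγ⟩) _ _ fun i => ?_
    rw [HeckeCorr.targetEquiv_apply, ← mobPt_coe_SL γ (det_coe_SL_pos γ),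
      ← mobPt_mul _ _ (hD i) _ (by rw [Matrix.det_mul]; exact mul_pos (hD i) (det_coe_SL_pos γ))]
    have hm := D.move_spec ⟨γ, hγ⟩ i
    have h1 : mobPt (D.rep i * (γ : M₂))
        (by rw [Matrix.det_mul]; exact mul_pos (hD i) (det_coe_SL_pos γ)) τ =
        mobPt (((D.move ⟨γ, hγ⟩ i : SL(2, ℤ)) : M₂) * D.rep (D.target ⟨γ, hγ⟩ i))
          (by rw [Matrix.det_mul]; exact mul_pos (det_coe_SL_pos _) (hD _)) τ :=
      UpperHalfPlane.ext (congrArg (fun Q : M₂ => mob Q (τ : ℂ)) hm)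
    rw [h1, mobPt_mul _ _ (det_coe_SL_pos _) (hD _), mobPt_coe_SL,
      hf.2.1 _ (D.move ⟨γ, hγ⟩ i).2]
  · have e : (fun τ => corrProd D hD f (γ • τ)) = ∏ i, fun τ => f (mobPt (D.rep i * (γ : M₂))
        (by rw [Matrix.det_mul]; exact mul_pos (hD i) (det_coe_SL_pos γ)) τ) := by
      funext τ
      rw [corrProd, Finset.prod_apply]
      refine Finset.prod_congr rfl fun i _ => ?_
      rw [mobPt_mul _ _ (hD i) (det_coe_SL_pos γ), mobPt_coe_SL]
    rw [e]
    exact Finset.prod_induction _ IsTame (fun _ _ ha hb => ha.mul hb)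
      (by simpa using FermatAgent.ModFun.isTame_algebraMap (1 : ℂ))
      fun i _ => isTame_comp_mobPt hf _ _

theorem corrProd_ne_zero {f : levelRingOf Γ} (hf : f ≠ 0) :
    corrProd D hD (f : ℍ → ℂ) ≠ 0 := by
  intro h0
  have key : ∀ (s : Finset ι), (fun τ : ℍ => ∏ i ∈ s, (f : ℍ → ℂ) (mobPt (D.rep i) (hD i) τ)) ≠ 0 := by
    classical
    intro s
    induction s using Finset.induction_on with
    | empty => intro h; simpa using congrFun h UpperHalfPlane.I
    | insert i s hi ih =>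
      intro h
      have h1 : (fun τ : ℍ => (f : ℍ → ℂ) (mobPt (D.rep i) (hD i) τ)) *
          (fun τ : ℍ => ∏ j ∈ s, (f : ℍ → ℂ) (mobPt (D.rep j) (hD j) τ)) = 0 := by
        funext τ
        have := congrFun h τ
        rwa [Finset.prod_insert hi] at this
      rcases (UpperHalfPlane.mul_eq_zero_iff (mdiff_comp f.2.1 (mdiff_mobPt _ _)) (by
        rw [UpperHalfPlane.mdifferentiable_iff]
        refine (DifferentiableOn.finsetProd (u := s)
          (f := fun j => (fun τ : ℍ => (f : ℍ → ℂ) (mobPt (D.rep j) (hD j) τ)) ∘ ofComplex)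
          fun j _ => ?_).congr fun z _ => by simp
        exact UpperHalfPlane.mdifferentiable_iff.mp (mdiff_comp f.2.1 (mdiff_mobPt _ _)))).mp h1
        with h2 | h2
      · refine hf (Subtype.ext (funext fun σ => ?_))
        have hadj : 0 < (D.rep i).adjugate.det := by
          rw [Matrix.det_adjugate]; simpa using hD i
        have h3 := congrFun h2 (mobPt (D.rep i).adjugate hadj σ)
        have h4 : mobPt (D.rep i) (hD i) (mobPt (D.rep i).adjugate hadj σ) = σ := by
          refine UpperHalfPlane.ext ?_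
          rw [coe_mobPt, coe_mobPt, ← mob_mul _ _ hadj.ne' σ.2, Matrix.mul_adjugate]
          have hne : (((D.rep i).det : ℤ) : ℂ) ≠ 0 := Int.cast_ne_zero.mpr (hD i).ne'
          simp only [mob, Matrix.smul_apply, Matrix.one_apply, smul_eq_mul]
          norm_num
          field_simp
        rw [Pi.zero_apply, Function.comp_apply, h4] at h3
        exact h3
      · exact ih h2
  exact key Finset.univ h0

end FermatAgent.DeligneSerre.X1
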