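import Fermat.Agent.DeligneSerre.X1.Hecke.Product
import Fermat.Agent.DeligneSerre.X1.Diamond
import Fermat.Agent.DeligneSerre.Periods.Corr
import Fermat.Agent.ES.Twist

/-!
# Expansion of the Hecke product

The expansion of the product of the translates under `T_p`.
-/

set_option autoImplicit false
set_option linter.unusedSectionVars false
set_option synthInstance.maxHeartbeats 200000

noncomputable section

open UpperHalfPlane hiding I
open CongruenceSubgroup
open scoped MatrixGroups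

namespace FermatAgent.DeligneSerre.X1

open ModularCurve (qExpand coeffMap)
open FermatAgent.ModFun (qLaurent qLaurentHom cuspRing dil aff expUnit)
open FermatAgent.ES (qTwist)
open FermatAgent.Periods (mob mob_mul diagRep upperRep)
open FermatAgent.DeligneSerre.Periods (tCorr1 tRep1 det_tRep1 tRep1_none tRep1_some gamma0Lift
  gamma0Lift_mem lr_gamma0Lift primeUnit mul_inv_mem_gam)

local notation "M₂" => Matrix (Fin 2) (Fin 2) ℤ

/-- The two sides of the defining relation of `T_p`: `w (q ^ (p p)) * ∏_b y (ζ ^ b q)`. -/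
def heckeSeries {L : Type*} [CommRing L] (p : ℕ) [NeZero p] (ζ : Lˣ) (w y : LaurentSeries L) :
    LaurentSeries L :=
  qExpand L (p * p) w * ∏ b ∈ Finset.range p, qTwist (ζ ^ b) y

theorem heckeSeries_mul {L : Type*} [CommRing L] (p : ℕ) [NeZero p] (ζ : Lˣ)
    (w w' y y' : LaurentSeries L) :
    heckeSeries p ζ (w * w') (y * y') = heckeSeries p ζ w y * heckeSeries p ζ w' y' := by
  simp only [heckeSeries, map_mul, Finset.prod_mul_distrib]
  ring

theorem heckeSeries_one {L : Type*} [CommRing L] (p : ℕ) [NeZero p] (ζ : Lˣ) :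
    heckeSeries p ζ (1 : LaurentSeries L) 1 = 1 := by
  simp [heckeSeries]

theorem coeffMap_heckeSeries {L L' : Type*} [CommRing L] [CommRing L'] (f : L →+* L') (p : ℕ)
    [NeZero p] (ζ : Lˣ) (w y : LaurentSeries L) :
    coeffMap f (heckeSeries p ζ w y) =
      heckeSeries p (Units.map f.toMonoidHom ζ) (coeffMap f w) (coeffMap f y) := by
  rw [heckeSeries, heckeSeries, map_mul, map_prod, ModularCurve.coeffMap_qExpand]
  simp only [FermatAgent.ES.coeffMap_qTwist, map_pow]

/-- The product does not depend on the primitive root. -/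
theorem prod_pow_congr {G H : Type*} [Monoid G] [CommMonoid H] {p : ℕ} [NeZero p] {ζ : G}
    (hζ : ζ ^ p = 1) {i : ℕ} (hi : i.Coprime p) (g : G → H) :
    ∏ b ∈ Finset.range p, g ((ζ ^ i) ^ b) = ∏ b ∈ Finset.range p, g (ζ ^ b) := by
  have e : ∀ F : ℕ → H, ∏ b ∈ Finset.range p, F b = ∏ x : ZMod p, F x.val := fun F => by
    refine (Finset.prod_bij (fun (x : ZMod p) _ => x.val) (fun x _ => Finset.mem_range.mpr x.val_lt)
      (fun x _ y _ h => ZMod.val_injective p h)
      (fun b hb => ⟨(b : ZMod p), Finset.mem_univ _,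
        ZMod.val_cast_of_lt (Finset.mem_range.mp hb)⟩) fun x _ => rfl).symm
  rw [e, e]
  refine Fintype.prod_equiv (Units.mulLeft (ZMod.unitOfCoprime i hi)) _ _ fun x => ?_
  show g ((ζ ^ i) ^ x.val) = g (ζ ^ ((ZMod.unitOfCoprime i hi : ZMod p) * x).val)
  rw [ZMod.coe_unitOfCoprime, ← pow_mul, pow_eq_pow_mod (i * x.val) hζ, ZMod.val_mul,
    ZMod.val_natCast, Nat.mod_mul_mod]

theorem heckeSeries_congr {L : Type*} [CommRing L] [IsDomain L] {p : ℕ} [NeZero p] {ζ ζ' : Lˣ}
    (hζ : IsPrimitiveRoot ζ p) (hζ' : IsPrimitiveRoot ζ' p) (w y : LaurentSeries L) :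
    heckeSeries p ζ' w y = heckeSeries p ζ w y := by
  obtain ⟨i, -, hi, hc⟩ := (IsPrimitiveRoot.coe_units_iff.mpr hζ).isPrimitiveRoot_iff.mp
    (IsPrimitiveRoot.coe_units_iff.mpr hζ')
  obtain rfl : ζ ^ i = ζ' := Units.ext (by rw [Units.val_pow_eq_pow_val, hc])
  rw [heckeSeries, heckeSeries, prod_pow_congr hζ.pow_eq_one hi (fun u => qTwist u y)]

variable {M : ℕ} [NeZero M] {p : ℕ} [NeZero p] (hp : p.Prime) (hpM : ¬ p ∣ M)

theorem tCorr1_det_pos (i : Option (ZMod p)) : 0 < ((tCorr1 hp hpM).rep i).det := by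
  show 0 < (tRep1 hp hpM i).det
  rw [det_tRep1]
  exact_mod_cast hp.pos

/-- The product of the translates under `T_p`. -/
def heckeFun (f : ℍ → ℂ) : ℍ → ℂ := corrProd (tCorr1 hp hpM) (tCorr1_det_pos hp hpM) f

theorem heckeFun_mem {f : ℍ → ℂ} (hf : f ∈ levelRingOf (gam M)) :
    heckeFun hp hpM f ∈ levelRingOf (gam M) :=
  corrProd_mem _ _ hf

theorem mobPt_diagRep (h : 0 < (diagRep p).det) (τ : ℍ) : mobPt (diagRep p) h τ = dil p τ := by
  refine UpperHalfPlane.ext ?_
  simp [mob, diagRep]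

theorem mobPt_upperRep (b : ℕ) (h : 0 < (upperRep p (b : ℤ)).det) (τ : ℍ) :
    mobPt (upperRep p (b : ℤ)) h τ = aff 1 p (b : ℤ) τ := by
  refine UpperHalfPlane.ext ?_
  rw [coe_mobPt, FermatAgent.ModFun.coe_aff]
  simp [mob, upperRep]

theorem aff_dil (b : ℕ) (τ : ℍ) : aff 1 p (b : ℤ) (dil p τ) = ((b : ℝ) / p) +ᵥ τ := by
  refine UpperHalfPlane.ext ?_
  rw [FermatAgent.ModFun.coe_aff, FermatAgent.ModFun.coe_dil, coe_vadd]
  have : (p : ℂ) ≠ 0 := Nat.cast_ne_zero.mpr (NeZero.ne p)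
  push_cast
  field_simp
  ring

/-- `gamma0Lift d` and `diamondMat d` act alike on invariant functions. -/
theorem gamma0Lift_smul {f : ℍ → ℂ} (hf : f ∈ levelRingOf (gam M)) (d : (ZMod M)ˣ) (τ : ℍ) :
    f (gamma0Lift d • τ) = f (diamondMat d • τ) := by
  have h := mul_inv_mem_gam (diamondMat_mem d) (gamma0Lift_mem d)
    ((diamondMat_apply_one_one d).trans (lr_gamma0Lift d).symm)
  rw [← hf.2.1 _ h (diamondMat d • τ), smul_smul, inv_mul_cancel_right]

theorem heckeFun_dil {f : ℍ → ℂ} (hf : f ∈ levelRingOf (gam M)) (τ : ℍ) :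
    heckeFun hp hpM f (dil p τ) =
      f (diamondMat (primeUnit hp hpM) • dil (p * p) τ) *
        ∏ b ∈ Finset.range p, f (((b : ℝ) / p) +ᵥ τ) := by
  rw [heckeFun, corrProd, Fintype.prod_option]
  congr 1
  · have hd : 0 < (diagRep p).det := by
      rw [FermatAgent.Periods.det_diagRep]; exact_mod_cast hp.pos
    have e : mobPt ((tCorr1 hp hpM).rep none) (tCorr1_det_pos hp hpM none) (dil p τ) =
        mobPt (((gamma0Lift (primeUnit hp hpM) : SL(2, ℤ)) : M₂) * diagRep p)
          (by rw [Matrix.det_mul]; exact mul_pos (det_coe_SL_pos _) hd) (dil p τ) := rfl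
    rw [e, mobPt_mul _ _ (det_coe_SL_pos _) hd, mobPt_coe_SL, mobPt_diagRep,
      FermatAgent.ModFun.dil_dil, gamma0Lift_smul hf]
  · refine Finset.prod_bij (fun (x : ZMod p) _ => x.val) (fun x _ => Finset.mem_range.mpr x.val_lt)
      (fun x _ y _ h => ZMod.val_injective p h)
      (fun b hb => ⟨(b : ZMod p), Finset.mem_univ _,
        ZMod.val_cast_of_lt (Finset.mem_range.mp hb)⟩) fun x _ => ?_
    have hu : 0 < (upperRep p (x.val : ℤ)).det := by
      rw [FermatAgent.Periods.det_upperRep]; exact_mod_cast hp.pos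
    rw [← aff_dil, ← mobPt_upperRep x.val hu]
    refine congrArg f (UpperHalfPlane.ext ?_)
    show mob (tRep1 hp hpM (some x)) _ = _
    rw [tRep1_some]
    rfl

theorem isPrimitiveRoot_expUnit : IsPrimitiveRoot (expUnit ((1 : ℝ) / p)) p := by
  refine IsPrimitiveRoot.coe_units_iff.mp ?_
  convert Complex.isPrimitiveRoot_exp p (NeZero.ne p) using 1
  simp only [expUnit, Units.val_mk0]
  push_cast
  ring_nf

theorem expUnit_natCast_div (b : ℕ) : expUnit ((b : ℝ) / p) = expUnit ((1 : ℝ) / p) ^ b := by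
  refine Units.ext ?_
  simp only [expUnit, Units.val_mk0, Units.val_pow_eq_pow_val]
  rw [← Complex.exp_nat_mul]
  push_cast
  ring_nf

/-- The expansion of `T_p f`. -/
theorem qExpand_qLaurent_heckeFun {f : ℍ → ℂ} (hf : f ∈ levelRingOf (gam M)) {ζ : ℂˣ}
    (hζ : IsPrimitiveRoot ζ p) :
    qExpand ℂ p (qLaurent (heckeFun hp hpM f)) =
      heckeSeries p ζ (qLaurent fun τ => f (diamondMat (primeUnit hp hpM) • τ)) (qLaurent f) := by
  rw [heckeSeries_congr (isPrimitiveRoot_expUnit (p := p)) hζ, heckeSeries]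
  have hc := levelRingOf_le_cuspRing (T_mem_gam M) hf
  have hT := levelRingOf_le_cuspRing (T_mem_gam M) (heckeFun_mem hp hpM hf)
  have hγ := levelRingOf_le_cuspRing (T_mem_gam M)
    (comp_smul_mem_levelRingOf (diamondMat_mem (primeUnit hp hpM)) hf)
  have hA := FermatAgent.ModFun.mem_cuspRing_comp_dil hγ (p * p)
  let A : cuspRing := ⟨_, hA⟩
  let B : ℕ → cuspRing := fun b =>
    ⟨fun τ => f (((b : ℝ) / p) +ᵥ τ), FermatAgent.ModFun.mem_cuspRing_comp_vadd hc _⟩
  have key : qLaurent (heckeFun hp hpM f ∘ dil p) = qLaurentHom (A * ∏ b ∈ Finset.range p, B b) := by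
    rw [FermatAgent.ModFun.qLaurentHom_apply]
    refine congrArg qLaurent (funext fun τ => ?_)
    rw [Function.comp_apply, heckeFun_dil hp hpM hf]
    simp [A, B, Finset.prod_apply]
  rw [← FermatAgent.ModFun.qLaurent_comp_dil hT, key, map_mul, map_prod]
  refine congrArg₂ _ ?_ (Finset.prod_congr rfl fun b _ => ?_)
  · show qLaurent ((fun τ => f (diamondMat (primeUnit hp hpM) • τ)) ∘ dil (p * p)) = _
    rw [FermatAgent.ModFun.qLaurent_comp_dil hγ]
  · show qLaurent (fun τ => f (((b : ℝ) / p) +ᵥ τ)) = _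
    rw [FermatAgent.ModFun.qLaurent_comp_vadd hc, expUnit_natCast_div]
    ext n
    rfl

end FermatAgent.DeligneSerre.X1
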